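import Fermat.Agent.S48.H1.RelDefs
import Fermat.Agent.S48.H1.Count
import Fermat.Agent.S18.H.Roots
import Fermat.Agent.S48.H1.Order

set_option autoImplicit false

/-! # S48 / H1 (textual twin of S18 / H over T24): H8 : the abstract "lands in `ℂ((s))`" theorem -/

open UpperHalfPlane ModularForm EisensteinSeries CongruenceSubgroup IntermediateField Polynomial
open AlgebraicCurve
open scoped MatrixGroups Manifold

namespace Fermat.Agent.T24.H1

open Fermat.Agent.S24
open Fermat.Agent.S18.H (Om inc mem_range_of_pow_eq)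


/-- `E` is generated by (the image of) a field `F₀`, `x` and `u`; `F₀` also embeds in `F = ℚ̄(X₀(N))`,
which is algebraic over it; `A(x) = B(x) j`, `u^m = g`, `m ∣ ord_v g` for all places `v` of `F`.
Then every embedding of `E` in `Om` which sends `x` to a chart value `ιs` has its image in `ℂ((s))`.

Proof.  `φ ∘ a : F₀ → Om` extends to `ψ : F → Om` (`IsAlgClosed.lift`, `F` algebraic over `F₀`).
`ψ (jF) = φ (a j₀) = A(ιs)/B(ιs) = Jc c`.  By `exists_eq_thetaQ_comp`, `ψ = inc ∘ thetaQ ∘ α`, so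
`φ (a f) ∈ range inc`; `φ x ∈ range inc`; `φ(u)^m = inc (thetaQ (α g))`, whose order is divisible by `m`
(`dvd_order_thetaQ`, `dvd_ord_arithmeticRingAut`), so `φ u ∈ range inc` by `mem_range_of_pow_eq`.
Finally `{y | φ y ∈ range inc}` is a subfield. -/
theorem landsIn_abstract (N : ℕ) [NeZero N] [Cond N] (A B : ℤ[X]) {E F₀ : Type} [Field E] [Field F₀]
    (a : F₀ →+* E) (b : F₀ →+* FN N) (hb : ∀ f : FN N, b.IsIntegralElem f)
    (j₀ g₀ : F₀) (hj : b j₀ = jF N) (x u : E) (m : ℕ) (hm : 0 < m)
    (hrel : aeval x A = aeval x B * a j₀) (hu : u ^ m = a g₀)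
    (hg : ∀ v : Place Kb (FN N), (m : ℤ) ∣ v.ord (b g₀))
    (hgen : Subfield.closure (Set.range a ∪ {x, u}) = ⊤)
    (ιs : LaurentSeries ℂ) (h : IsXChart N A B ιs)
    (φ : E →+* Om) (hφx : φ x = inc ιs) (y : E) : φ y ∈ inc.range := by
  obtain ⟨c, hB, hA⟩ := h
  obtain ⟨ψ, hψ⟩ := S18.H.Abstract.exists_extension b hb (φ.comp a)
  -- the value of `ψ` at `j`
  have haev : ∀ P : ℤ[X], φ (aeval x P) = inc (aeval ιs P) := by
    intro P
    have h1 : φ (aeval x P) = aeval (φ x) P := by
      simp only [aeval_def, hom_eval₂]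
      congr 1
      exact Subsingleton.elim _ _
    have h2 : inc (aeval ιs P) = aeval (inc ιs) P := by
      simp only [aeval_def, hom_eval₂]
      congr 1
    rw [h1, h2, hφx]
  have hψj : ψ (jF N) = inc (Jc c) := by
    rw [← hj, hψ]
    have h1 := congrArg φ hrel
    rw [map_mul, haev, haev, hA, map_mul] at h1
    have h2 : inc (aeval ιs B) ≠ 0 := by
      rw [Ne, map_eq_zero]; exact hB
    exact (mul_left_cancel₀ h2 h1).symm
  obtain ⟨q, α, hqα⟩ := exists_eq_thetaQ_comp N c ψ hψj
  -- the subfield of elements landing in the range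
  have hle : Subfield.closure (Set.range a ∪ {x, u}) ≤ (inc.fieldRange).comap φ := by
    rw [Subfield.closure_le]
    rintro z (⟨f, rfl⟩ | hz | hz)
    · show φ (a f) ∈ inc.fieldRange
      have : φ (a f) = ψ (b f) := (hψ f).symm
      rw [this, hqα]
      exact ⟨_, rfl⟩
    · rw [hz]
      exact ⟨ιs, hφx.symm⟩
    · rw [Set.mem_singleton_iff] at hz
      rw [hz]
      show φ u ∈ inc.fieldRange
      have h1 : (φ u) ^ m = inc (thetaQ N c q
          (ModularCurve.arithmeticRingAut (T24.modularFunctionFieldFull N) α (b g₀))) := by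
        rw [← map_pow, hu]
        have : φ (a g₀) = ψ (b g₀) := (hψ g₀).symm
        rw [this, hqα]
        rfl
      have h2 := dvd_order_thetaQ N c q (m : ℤ) _
        (dvd_ord_arithmeticRingAut N α (m : ℤ) (b g₀) hg)
      have h3 := mem_range_of_pow_eq inc m hm _ h2 (φ u) h1
      exact h3
  have hy : y ∈ Subfield.closure (Set.range a ∪ {x, u}) := by rw [hgen]; trivial
  exact hle hy

end Fermat.Agent.T24.H1
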