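import Fermat.Agent.S48.H1.RelDefs
import Fermat.Agent.S48.H1.Charts
import Fermat.Agent.S18.H.Lift

set_option autoImplicit false

open UpperHalfPlane ModularForm EisensteinSeries CongruenceSubgroup IntermediateField Polynomial
open scoped MatrixGroups Manifold

namespace Fermat.Agent.T24.H1

open Fermat.Agent.S24
open Fermat.Agent.S18.H (Om inc A3 B3 A2 B2 exists_lift mem_range_of_pow_eq)

/-! # S48 / H1 (textual twin of S18 / H over T24): H7b : charts for `x`, level 2.

All four statements are applications of `exists_lift` (over `k = ℂ`, polynomials mapped from `ℤ[X]`):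
* `gen2`: `j0 = (c'+256)³/c'²`.
  - `c' = -256` (`j0 = 0`): `A2 = (X+256)³`, `m = 3`, `G = 1`, `r = 1`, chart `exists_chart_zero`;
  - `c' = 512` (`j0 = 1728`): `A2 - 1728 B2 = (X-512)² (X+64)`, `m = 2`, `r = 1`, chart `exists_chart_1728`;
  - otherwise `j0 ∉ {0,1728}` (`j0 - 1728 = (c'+64)(c'-512)²/c'²`), `m = 1`, `G = (A2 - j0 B2)/(X - c')`,
    `c' G(c') = (c'+256)² (c'-512) ≠ 0`, chart `exists_chart_generic`.
* `ell2`: `j0 = 1728`, `c = -64`, `m = 1`, `G = (X-512)²`, `r = 2`, chart `exists_chart_1728`.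
* `zero2`: apply `exists_lift` to `(A,B,J,j0,c) := (B2, A2, J⁻¹, 0, 0)`, `m = 2`, `G = 1`, `r = N`,
  `J = Jc (powChart N 2)` (order `-2N`).
* `inf2`: apply `exists_lift` to `(A,B,J,j0,c) := (X, (1+256X)³, J⁻¹, 0, 0)`, `m = 1`, `G = 1`, `r = N`,
  `J = Jc (powChart N 1)`; get `Y` of order `N` with `Y = (1+256Y)³ J⁻¹`; take `ιs = Y⁻¹`. -/

namespace Rel2

theorem aeval_A2 (y : LaurentSeries ℂ) : aeval y A2 = (y + 256) ^ 3 := by
  simp only [A2, map_pow, map_add, aeval_X, map_ofNat]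

theorem aeval_B2 (y : LaurentSeries ℂ) : aeval y B2 = y ^ 2 := by
  simp only [B2, map_pow, aeval_X]

/-- wrapper around `exists_lift` for the pair `(A2, B2)`. -/
theorem wrap (N : ℕ) [NeZero N] [Cond N] (G : ℂ[X]) (j0 c : ℂ) (m r : ℕ) (hm : m ≠ 0) (hr : 0 < r)
    (hfac : (X + 256) ^ 3 - C j0 * X ^ 2 = (X - C c) ^ m * G) (hG : G.eval c ≠ 0) (hc : c ≠ 0)
    (ch : Chart N) (hJ : (Jc ch - HahnSeries.C j0).order = (m : ℤ) * r) :
    ∃ ιs : LaurentSeries ℂ, (ιs - HahnSeries.C c).order = (r : ℤ) ∧ IsXChart N A2 B2 ιs := by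
  obtain ⟨Xs, h1, h2, h3⟩ := exists_lift ((X + 256) ^ 3) (X ^ 2) G j0 c m r
    (Nat.cast_ne_zero.2 hm) hr hfac hG (by simpa using hc) (Jc ch) hJ
  simp only [map_pow, map_add, aeval_X, map_ofNat] at h2 h3
  refine ⟨Xs, h1, ch, ?_, ?_⟩
  · rw [aeval_B2]; exact h3
  · rw [aeval_A2, aeval_B2]; exact h2

end Rel2

open Rel2

theorem gen2 (N : ℕ) [NeZero N] [Cond N] (c' : ℂ) (h0 : c' ≠ 0) (h1 : c' ≠ -64) :
    ∃ ιs : LaurentSeries ℂ, (ιs - HahnSeries.C c').order = 1 ∧ IsXChart N A2 B2 ιs := by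
  by_cases ha : c' = -256
  · obtain ⟨ch, hch⟩ := exists_chart_zero N
    have := wrap N 1 0 c' 3 1 (by norm_num) (by norm_num)
      (by rw [ha]; simp only [map_zero, zero_mul, sub_zero, mul_one, map_neg, sub_neg_eq_add, map_ofNat])
      (by simp) h0 ch (by rw [hch]; norm_num)
    simpa using this
  by_cases hb : c' = 512
  · obtain ⟨ch, hch⟩ := exists_chart_1728 N
    have := wrap N (X + 64) 1728 c' 2 1 (by norm_num) (by norm_num)
      (by rw [hb]; simp only [map_ofNat]; ring)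
      (by rw [hb]; simp; norm_num) h0 ch (by rw [hch]; norm_num)
    simpa using this
  · set j0 : ℂ := (c' + 256) ^ 3 / c' ^ 2 with hj0
    have ha' : c' + 256 ≠ 0 := fun h => ha (by linear_combination h)
    have hb' : c' - 512 ≠ 0 := fun h => hb (by linear_combination h)
    have h1' : c' + 64 ≠ 0 := fun h => h1 (by linear_combination h)
    have hj00 : j0 ≠ 0 := div_ne_zero (pow_ne_zero _ ha') (pow_ne_zero _ h0)
    have hj01 : j0 ≠ 1728 := by
      intro h
      have h2 : j0 - 1728 = (c' + 64) * (c' - 512) ^ 2 / c' ^ 2 := by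
        rw [hj0]; field_simp; ring
      rw [h, sub_self] at h2
      exact (div_ne_zero (mul_ne_zero h1' (pow_ne_zero _ hb')) (pow_ne_zero _ h0)) h2.symm
    obtain ⟨ch, hch⟩ := exists_chart_generic N j0 hj00 hj01
    have hrel : (c' + 256) ^ 3 = j0 * c' ^ 2 := by
      rw [hj0]; field_simp
    have := wrap N ((X + 256) ^ 2 + (X + 256) * C (c' + 256) + C ((c' + 256) ^ 2)
        - C j0 * (X + C c')) j0 c' 1 1 (by norm_num) (by norm_num)
      (by
        have h3 : (C ((c' + 256) ^ 3) : ℂ[X]) = C (j0 * c' ^ 2) := by rw [hrel]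
        simp only [map_pow, map_add, map_mul, map_ofNat] at h3 ⊢
        linear_combination h3)
      (by
        simp only [eval_sub, eval_add, eval_mul, eval_pow, eval_X, eval_C, eval_ofNat]
        have : (c' + 256) ^ 2 + (c' + 256) * (c' + 256) + (c' + 256) ^ 2 - j0 * (c' + c')
            = (c' + 256) ^ 2 * (c' - 512) / c' := by
          rw [hj0]; field_simp; ring
        rw [this]
        exact div_ne_zero (mul_ne_zero (pow_ne_zero _ ha') hb') h0)
      h0 ch (by rw [hch]; norm_num)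
    simpa using this

theorem ell2 (N : ℕ) [NeZero N] [Cond N] :
    ∃ ιs : LaurentSeries ℂ, (ιs - HahnSeries.C (-64)).order = 2 ∧ IsXChart N A2 B2 ιs := by
  obtain ⟨ch, hch⟩ := exists_chart_1728 N
  have := wrap N ((X - 512) ^ 2) 1728 (-64) 1 2 (by norm_num) (by norm_num)
    (by simp only [map_ofNat, map_neg]; ring)
    (by simp; norm_num) (by norm_num) ch (by rw [hch]; norm_num)
  simpa using this

theorem zero2 (N : ℕ) [NeZero N] [Cond N] :
    ∃ ιs : LaurentSeries ℂ, ιs.order = (N : ℤ) ∧ IsXChart N A2 B2 ιs := by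
  have hN : (N : ℤ) ≠ 0 := Nat.cast_ne_zero.2 (NeZero.ne N)
  set J := Jc (powChart N 2) with hJ
  have hJo : J.order = -((2 : ℤ) * N) := by
    have := order_Jc_powChart N 2
    simpa using this
  have hJ0 : J ≠ 0 := by
    intro h
    rw [h, HahnSeries.order_zero] at hJo
    omega
  obtain ⟨Xs, h1, h2, h3⟩ := exists_lift (X ^ 2) ((X + 256) ^ 3) 1 0 0 2 N
    (by norm_num) (Nat.pos_of_ne_zero (NeZero.ne N)) (by simp) (by simp) (by simp) J⁻¹
    (by rw [map_zero, sub_zero, Cards.order_inv' _ hJ0, hJo]; push_cast; ring)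
  simp only [map_pow, map_add, aeval_X, map_ofNat, map_zero, sub_zero] at h1 h2 h3
  have hX0 : Xs ≠ 0 := by
    intro h
    rw [h, HahnSeries.order_zero] at h1
    exact hN h1.symm
  refine ⟨Xs, h1, powChart N 2, ?_, ?_⟩
  · rw [aeval_B2]; exact pow_ne_zero _ hX0
  · rw [aeval_A2, aeval_B2, h2, ← hJ, mul_assoc, inv_mul_cancel₀ hJ0, mul_one]

theorem inf2 (N : ℕ) [NeZero N] [Cond N] :
    ∃ ιs : LaurentSeries ℂ, ιs.order = -(N : ℤ) ∧ IsXChart N A2 B2 ιs := by
  have hN : (N : ℤ) ≠ 0 := Nat.cast_ne_zero.2 (NeZero.ne N)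
  set J := Jc (powChart N 1) with hJ
  have hJo : J.order = -(N : ℤ) := by
    have := order_Jc_powChart N 1
    simpa using this
  have hJ0 : J ≠ 0 := by
    intro h
    rw [h, HahnSeries.order_zero] at hJo
    omega
  obtain ⟨Y, h1, h2, h3⟩ := exists_lift X ((1 + 256 * X) ^ 3) 1 0 0 1 N
    (by norm_num) (Nat.pos_of_ne_zero (NeZero.ne N)) (by simp) (by simp) (by simp) J⁻¹
    (by rw [map_zero, sub_zero, Cards.order_inv' _ hJ0, hJo]; push_cast; ring)
  simp only [map_pow, map_add, map_mul, map_one, aeval_X, map_ofNat, map_zero, sub_zero] at h1 h2 h3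
  have hY0 : Y ≠ 0 := by
    intro h
    rw [h, HahnSeries.order_zero] at h1
    exact hN h1.symm
  refine ⟨Y⁻¹, by rw [Cards.order_inv' _ hY0, h1], powChart N 1, ?_, ?_⟩
  · rw [aeval_B2]; exact pow_ne_zero _ (inv_ne_zero hY0)
  · rw [aeval_A2, aeval_B2, ← hJ]
    have h4 : Y * J = (1 + 256 * Y) ^ 3 := by
      conv_lhs => rw [h2]
      rw [mul_assoc, inv_mul_cancel₀ hJ0, mul_one]
    field_simp
    linear_combination (-1 : LaurentSeries ℂ) * h4

end Fermat.Agent.T24.H1
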