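import Fermat.Agent.S48.H1.RelDefs
import Fermat.Agent.S48.H1.Charts
import Fermat.Agent.S18.H.Lift

set_option autoImplicit false

open UpperHalfPlane ModularForm EisensteinSeries CongruenceSubgroup IntermediateField Polynomial
open scoped MatrixGroups Manifold

namespace Fermat.Agent.T24.H1

open Fermat.Agent.S24
open Fermat.Agent.S18.H (Om inc A3 B3 A2 B2 exists_lift mem_range_of_pow_eq)

/-! # S48 / H1 (textual twin of S18 / H over T24): H7a : charts for `x`, level 3.

All four statements are applications of `exists_lift` (over `k = ℂ`, polynomials mapped from `ℤ[X]`):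
* `gen3`: `j0 = (c'+27)(c'+243)³/c'³`.
  - `c' = -243` (`j0 = 0`): `A3 = (X+243)³ (X+27)`, `m = 3`, `r = 1`, chart `exists_chart_zero`;
  - `c'² - 486 c' - 19683 = 0` (`j0 = 1728`): `A3 - 1728 B3 = (X² - 486 X - 19683)² = (X-c')² (X-(486-c'))²`,
    `m = 2`, `r = 1`, chart `exists_chart_1728`;
  - otherwise `j0 ∉ {0,1728}` (`j0 - 1728 = (c'²-486c'-19683)²/c'³`), `m = 1`, `G = (A3 - j0 B3)/(X - c')`,
    `c' G(c') = c' (A3 - j0 B3)'(c') = (c'+243)² (c'²-486c'-19683) ≠ 0`, chart `exists_chart_generic`.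
* `ell3`: `j0 = 0`, `c = -27`, `m = 1`, `G = (X+243)³`, `r = 3`, chart `exists_chart_zero`.
* `zero3`: apply `exists_lift` to `(A,B,J,j0,c) := (B3, A3, J⁻¹, 0, 0)`, `m = 3`, `G = 1`, `r = N`,
  `J = Jc (powChart N 3)` (order `-3N`).
* `inf3`: apply `exists_lift` to `(A,B,J,j0,c) := (X, (1+27X)(1+243X)³, J⁻¹, 0, 0)`, `m = 1`, `G = 1`, `r = N`,
  `J = Jc (powChart N 1)`; get `Y` of order `N` with `Y = (1+27Y)(1+243Y)³ J⁻¹`; take `ιs = Y⁻¹`. -/

namespace Rel3

/-- the complex version of an integral polynomial. -/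
noncomputable abbrev toC (P : ℤ[X]) : ℂ[X] := P.map (algebraMap ℤ ℂ)

theorem aeval_toC (x : LaurentSeries ℂ) (P : ℤ[X]) : aeval x (toC P) = aeval x P := by
  rw [aeval_def, aeval_def, toC, eval₂_map]
  congr 1
  exact RingHom.ext_int _ _

theorem ord_inv (x : LaurentSeries ℂ) (hx : x ≠ 0) : (x⁻¹).order = - x.order := by
  have h := HahnSeries.order_mul hx (inv_ne_zero hx)
  rw [mul_inv_cancel₀ hx, HahnSeries.order_one] at h
  omega

theorem toC_A3 : toC A3 = (X + C 27) * (X + C 243) ^ 3 := by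
  simp only [toC, A3, Polynomial.map_mul, Polynomial.map_add, Polynomial.map_pow, Polynomial.map_X]
  have h1 : ((27 : ℤ[X])).map (algebraMap ℤ ℂ) = C 27 := by
    rw [show (27 : ℤ[X]) = C 27 from rfl, Polynomial.map_C]; simp
  have h2 : ((243 : ℤ[X])).map (algebraMap ℤ ℂ) = C 243 := by
    rw [show (243 : ℤ[X]) = C 243 from rfl, Polynomial.map_C]; simp
  rw [h1, h2]

theorem toC_B3 : toC B3 = X ^ 3 := by
  simp [toC, B3]

/-- the general chart lifting statement. -/
theorem lift_chart (N : ℕ) [Cond N] (A B : ℤ[X]) (G : ℂ[X]) (j0 c : ℂ) (m r : ℕ)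
    (hm : (m : ℂ) ≠ 0) (hr : 0 < r)
    (hfac : toC A - C j0 * toC B = (X - C c) ^ m * G) (hG : G.eval c ≠ 0)
    (hB : (toC B).eval c ≠ 0) (ch : Chart N)
    (hJ : (Jc ch - HahnSeries.C j0).order = (m : ℤ) * r) :
    ∃ ιs : LaurentSeries ℂ, (ιs - HahnSeries.C c).order = (r : ℤ) ∧ IsXChart N A B ιs := by
  obtain ⟨Xs, h1, h2, h3⟩ := exists_lift (toC A) (toC B) G j0 c m r hm hr hfac hG hB (Jc ch) hJ
  rw [aeval_toC, aeval_toC] at h2
  rw [aeval_toC] at h3
  exact ⟨Xs, h1, ch, h3, h2⟩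

end Rel3

open Rel3

theorem gen3 (N : ℕ) [NeZero N] [Cond N] (c' : ℂ) (h0 : c' ≠ 0) (h1 : c' ≠ -27) :
    ∃ ιs : LaurentSeries ℂ, (ιs - HahnSeries.C c').order = 1 ∧ IsXChart N A3 B3 ιs := by
  by_cases h243 : c' = -243
  · subst h243
    obtain ⟨ch, hch⟩ := exists_chart_zero N
    have := lift_chart N A3 B3 (X + C 27) 0 (-243) 3 1 (by norm_num) one_pos
      (by rw [toC_A3, toC_B3]; simp only [map_zero, zero_mul, sub_zero, map_neg, sub_neg_eq_add]
          ring)
      (by simp; norm_num) (by rw [toC_B3]; simp) ch (by rw [hch]; norm_num)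
    simpa using this
  by_cases hq : c' ^ 2 - 486 * c' - 19683 = 0
  · obtain ⟨ch, hch⟩ := exists_chart_1728 N
    have hne : 2 * c' - 486 ≠ 0 := by
      intro h
      have hc : c' = 243 := by linear_combination h / 2
      rw [hc] at hq
      norm_num at hq
    have := lift_chart N A3 B3 ((X - C (486 - c')) ^ 2) 1728 c' 2 1 (by norm_num) one_pos
      (by
        rw [toC_A3, toC_B3]
        have hC : (C (c' ^ 2 - 486 * c' - 19683) : ℂ[X]) = 0 := by rw [hq, map_zero]
        simp only [map_sub, map_mul, map_pow] at hC ⊢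
        have e486 : (C (486 : ℂ) : ℂ[X]) = 486 := map_ofNat C 486
        have e19683 : (C (19683 : ℂ) : ℂ[X]) = 19683 := map_ofNat C 19683
        have e27 : (C (27 : ℂ) : ℂ[X]) = 27 := map_ofNat C 27
        have e243 : (C (243 : ℂ) : ℂ[X]) = 243 := map_ofNat C 243
        have e1728 : (C (1728 : ℂ) : ℂ[X]) = 1728 := map_ofNat C 1728
        rw [e486, e19683] at hC
        rw [e486, e27, e243, e1728]
        linear_combination (2 * (X ^ 2 - 486 * X - 19683 : ℂ[X]) - (C c' ^ 2 - 486 * C c' - 19683)) * hC)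
      (by
        simp only [eval_pow, eval_sub, eval_X, eval_C]
        intro h
        apply hne
        have := pow_eq_zero_iff (two_ne_zero) |>.mp h
        linear_combination this)
      (by rw [toC_B3]; simpa using h0) ch (by rw [hch]; norm_num)
    simpa using this
  · -- generic case
    set j0 : ℂ := (c' + 27) * (c' + 243) ^ 3 / c' ^ 3 with hj0
    have hc3 : c' ^ 3 ≠ 0 := pow_ne_zero 3 h0
    have h27 : c' + 27 ≠ 0 := fun h => h1 (by linear_combination h)
    have h243' : c' + 243 ≠ 0 := fun h => h243 (by linear_combination h)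
    have hj0ne : j0 ≠ 0 := by
      rw [hj0]
      exact div_ne_zero (mul_ne_zero h27 (pow_ne_zero 3 h243')) hc3
    have hj0mul : j0 * c' ^ 3 = (c' + 27) * (c' + 243) ^ 3 := by
      rw [hj0]; field_simp
    have hj1728 : j0 ≠ 1728 := by
      intro h
      rw [h] at hj0mul
      apply hq
      have : (c' ^ 2 - 486 * c' - 19683) ^ 2 = 0 := by linear_combination -hj0mul
      exact pow_eq_zero_iff (two_ne_zero) |>.mp this
    obtain ⟨ch, hch⟩ := exists_chart_generic N j0 hj0ne hj1728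
    have hroot : (toC A3 - C j0 * toC B3).IsRoot c' := by
      rw [toC_A3, toC_B3, IsRoot.def]
      simp only [eval_sub, eval_mul, eval_add, eval_X, eval_C, eval_pow]
      linear_combination -hj0mul
    obtain ⟨G, hG⟩ := dvd_iff_isRoot.mpr hroot
    have hGc : c' * G.eval c' = (c' + 243) ^ 2 * (c' ^ 2 - 486 * c' - 19683) := by
      have hd := congrArg (fun P => (derivative P).eval c') hG
      simp only [toC_A3, toC_B3, derivative_sub, derivative_mul, derivative_add, derivative_X,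
        derivative_C, derivative_pow, eval_sub, eval_mul, eval_add, eval_X, eval_C,
        eval_pow, eval_natCast, sub_self, zero_mul, add_zero, one_mul,
        mul_one, zero_add, sub_zero, map_natCast] at hd
      have hd' : G.eval c' = (c' + 243) ^ 3 + (c' + 27) * (3 * (c' + 243) ^ 2) - j0 * (3 * c' ^ 2) := by
        rw [← hd]; norm_num
      rw [hd']
      linear_combination (-3 : ℂ) * hj0mul
    have hGne : G.eval c' ≠ 0 := by
      intro h
      rw [h, mul_zero] at hGc
      exact (mul_ne_zero (pow_ne_zero 2 h243') hq) hGc.symm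
    have := lift_chart N A3 B3 G j0 c' 1 1 (by norm_num) one_pos
      (by rw [hG, pow_one]) hGne (by rw [toC_B3]; simpa using h0) ch (by rw [hch]; norm_num)
    simpa using this

theorem ell3 (N : ℕ) [NeZero N] [Cond N] :
    ∃ ιs : LaurentSeries ℂ, (ιs - HahnSeries.C (-27)).order = 3 ∧ IsXChart N A3 B3 ιs := by
  obtain ⟨ch, hch⟩ := exists_chart_zero N
  have := lift_chart N A3 B3 ((X + C 243) ^ 3) 0 (-27) 1 3 (by norm_num) (by norm_num)
    (by rw [toC_A3, toC_B3]; simp only [map_zero, zero_mul, sub_zero, map_neg, sub_neg_eq_add,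
          pow_one])
    (by simp; norm_num) (by rw [toC_B3]; simp) ch (by rw [hch]; norm_num)
  simpa using this

theorem zero3 (N : ℕ) [NeZero N] [Cond N] :
    ∃ ιs : LaurentSeries ℂ, ιs.order = (N : ℤ) ∧ IsXChart N A3 B3 ιs := by
  have hN : 0 < N := Nat.pos_of_ne_zero (NeZero.ne N)
  set J := Jc (powChart N 3) with hJdef
  have hJo : J.order = -((3 : ℕ) * (N : ℤ)) := order_Jc_powChart N 3
  have hJne : J ≠ 0 := by
    intro h
    rw [h, HahnSeries.order_zero] at hJo
    have : (0 : ℤ) < N := by exact_mod_cast hN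
    push_cast at hJo
    omega
  obtain ⟨Xs, h1, h2, h3⟩ := exists_lift (toC B3) (toC A3) 1 0 0 3 N (by norm_num) hN
    (by rw [toC_B3]; simp) (by simp) (by rw [toC_A3]; simp) J⁻¹
    (by rw [map_zero, sub_zero, ord_inv _ hJne, hJo]; push_cast; ring)
  rw [aeval_toC, aeval_toC] at h2
  rw [aeval_toC] at h3
  rw [map_zero, sub_zero] at h1
  refine ⟨Xs, h1, powChart N 3, ?_, ?_⟩
  · rw [h2]
    exact mul_ne_zero h3 (inv_ne_zero hJne)
  · rw [h2, mul_assoc, inv_mul_cancel₀ hJne, mul_one]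

theorem inf3 (N : ℕ) [NeZero N] [Cond N] :
    ∃ ιs : LaurentSeries ℂ, ιs.order = -(N : ℤ) ∧ IsXChart N A3 B3 ιs := by
  have hN : 0 < N := Nat.pos_of_ne_zero (NeZero.ne N)
  set J := Jc (powChart N 1) with hJdef
  have hJo : J.order = -((1 : ℕ) * (N : ℤ)) := order_Jc_powChart N 1
  have hJne : J ≠ 0 := by
    intro h
    rw [h, HahnSeries.order_zero] at hJo
    have : (0 : ℤ) < N := by exact_mod_cast hN
    push_cast at hJo
    omega
  obtain ⟨Y, h1, h2, h3⟩ := exists_lift (X : ℂ[X]) ((1 + C 27 * X) * (1 + C 243 * X) ^ 3) 1 0 0 1 N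
    (by norm_num) hN (by simp) (by simp) (by simp) J⁻¹
    (by rw [map_zero, sub_zero, ord_inv _ hJne, hJo]; push_cast; ring)
  rw [map_zero, sub_zero] at h1
  have hYne : Y ≠ 0 := by
    intro h
    rw [h, HahnSeries.order_zero] at h1
    have : (0 : ℤ) < N := by exact_mod_cast hN
    omega
  simp only [aeval_X, map_mul, map_add, map_one, aeval_C, map_pow] at h2
  refine ⟨Y⁻¹, by rw [ord_inv _ hYne, h1], powChart N 1, ?_, ?_⟩
  · simp only [B3, map_pow, aeval_X]
    exact pow_ne_zero 3 (inv_ne_zero hYne)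
  · simp only [A3, B3, map_pow, aeval_X, map_mul, map_add]
    have e27 : (aeval Y⁻¹) (27 : ℤ[X]) = (27 : LaurentSeries ℂ) := by
      rw [show (27 : ℤ[X]) = C 27 from rfl, aeval_C]; simp
    have e243 : (aeval Y⁻¹) (243 : ℤ[X]) = (243 : LaurentSeries ℂ) := by
      rw [show (243 : ℤ[X]) = C 243 from rfl, aeval_C]; simp
    have f27 : algebraMap ℂ (LaurentSeries ℂ) 27 = 27 := map_ofNat _ 27
    have f243 : algebraMap ℂ (LaurentSeries ℂ) 243 = 243 := map_ofNat _ 243
    rw [e27, e243]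
    rw [f27, f243] at h2
    rw [← hJdef]
    have hYJ : Y * J = (1 + 27 * Y) * (1 + 243 * Y) ^ 3 := by
      conv_lhs => rw [h2]
      rw [mul_assoc, inv_mul_cancel₀ hJne, mul_one]
    field_simp
    linear_combination -hYJ

end Fermat.Agent.T24.H1
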