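import Fermat.Agent.S48.T24.Cards
import Fermat.Agent.S18.H.Abstract

set_option autoImplicit false

/-! # S48 / H1 (twin of S18 / H4) : every embedding of `F = ℚ̄(X(Gam N))` over `j ↦ J(s)` is one of the `thetaQ`

The generic lemmas (`Om`, `inc`, `CountA.*`, `Order.dvd_of_isVal`, `Abstract.exists_extension`, `exists_aut`,
`mem_range_of_pow_eq`, Hensel/Lift) are those of `Fermat.Agent.S18.H`. -/

open UpperHalfPlane ModularForm EisensteinSeries CongruenceSubgroup IntermediateField
open scoped MatrixGroups Manifold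

namespace Fermat.Agent.T24.H1

open Fermat.Agent.S24
open Fermat.Agent.S18.H (Om inc)

/-- the image of `j` in a chart. -/
noncomputable def Jc {N : ℕ} [Cond N] (c : Chart N) : LaurentSeries ℂ := c.onB ⟨jFun, jFun_mem_Btil N⟩

/-- (a) with the standard embedding of the constants. -/
theorem exists_eq_thetaQ (N : ℕ) [NeZero N] [Cond N] (c : Chart N) (φ : FN N →+* Om)
    (hK : ∀ a : Kb, φ (algebraMap Kb (FN N) a) = inc (HahnSeries.C (iotaK a)))
    (hj : φ (jF N) = inc (Jc c)) :
    ∃ q : SL(2, ℤ) ⧸ Gam N, φ = inc.comp (thetaQ N c q) := by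
  have := Cards.finite_Q N
  have := finiteDimensional_jF N
  refine S18.H.CountA.exists_eq_of_card (k := Kb⟮jF N⟯) (fun q => inc.comp (thetaQ N c q)) ?_ φ ?_
    (Cards.card_Q N)
  · intro q q' h
    apply thetaQ_injective N c
    ext1 y
    have := congrArg (fun ψ : FN N →+* Om => ψ y) h
    exact inc.injective this
  · intro q a
    refine S18.H.CountA.eq_on_adjoin (K := Kb) (jF N) _ _ ?_ ?_ _ a.2
    · intro b
      rw [hK, RingHom.comp_apply, thetaQ, theta_const]
    · rw [hj, RingHom.comp_apply, thetaQ, theta_jF, Jc]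

end Fermat.Agent.T24.H1
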