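import Fermat.Agent.S48.H1.CountA

set_option autoImplicit false

/-! # S48 / H1 (textual twin of S18 / H over T24): H7 : charts for the auxiliary coordinate `x`, `A(x) = B(x) j`

`(A,B) = (A3,B3)`: `j = (x+27)(x+243)³/x³`   (Hauptmodul of `Γ₀(3)`; elliptic value `c = -27`, `e = 3`)
`(A,B) = (A2,B2)`: `j = (x+256)³/x²`          (Hauptmodul of `Γ₀(2)`; elliptic value `c = -64`, `e = 2`)
-/

open UpperHalfPlane ModularForm EisensteinSeries CongruenceSubgroup IntermediateField Polynomial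
open scoped MatrixGroups Manifold

namespace Fermat.Agent.T24.H1

open Fermat.Agent.S24
open Fermat.Agent.S18.H (Om inc)

/-- `ιs ∈ ℂ((s))` is a value of `x` in some chart of `X₀(N)`. -/
def IsXChart (N : ℕ) [Cond N] (A B : ℤ[X]) (ιs : LaurentSeries ℂ) : Prop :=
  ∃ c : Chart N, aeval ιs B ≠ 0 ∧ aeval ιs A = aeval ιs B * Jc c

end Fermat.Agent.T24.H1
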